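import Mathlib

/-!
# S43 / Free / Alg : modular representations of a finite `p`-group (pure algebra)

`G` a finite `p`-group, `k` a field of characteristic `p`, `ρ : Representation k G W`.

* `exists_fixed_add`     : a nonzero stable subgroup of an `𝔽_p`-module with `G`-action has a nonzero fixed vector;
* `exists_fixed_ne_zero` : the same for a stable subspace of `W`;
* `span_orbit_eq_top`    : Nakayama: generators of the coinvariants generate `W` over `k[G]`;
* `free_of_Nm_inj`       : if `Nm w = 0 → w ∈ aug W` then `W` is free over `k[G]`: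
                           there are `w i` such that `(g, i) ↦ ρ g (w i)` is a `k`-basis of `W`.
-/

set_option autoImplicit false

namespace Fermat.Agent.S43.Free.Alg

open Module

section Fixed

variable {G A : Type*} [Group G] [Finite G] [AddCommGroup A]

/-- A nonzero stable subgroup of an abelian group killed by `p` with an action of a finite `p`-group contains a
nonzero fixed vector. -/
theorem exists_fixed_add (p : ℕ) [Fact p.Prime] (hG : IsPGroup p G) (act : G → A →+ A)
    (h1 : ∀ a, act 1 a = a) (hmul : ∀ g h a, act (g * h) a = act g (act h a))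
    (hp : ∀ a : A, p • a = 0) (U : AddSubgroup A) (hU : ∀ g, ∀ u ∈ U, act g u ∈ U) (hne : U ≠ ⊥) :
    ∃ u ∈ U, u ≠ 0 ∧ ∀ g, act g u = u := by
  obtain ⟨u, huU, hu0⟩ : ∃ u ∈ U, u ≠ 0 := by
    obtain ⟨x, hx⟩ := AddSubgroup.ne_bot_iff_exists_ne_zero.1 hne
    exact ⟨(x : A), x.2, fun h => hx (Subtype.ext h)⟩
  let S : AddSubgroup A := AddSubgroup.closure (Set.range fun g => act g u)
  have hSU : S ≤ U := by
    rw [AddSubgroup.closure_le]
    rintro _ ⟨g, rfl⟩
    exact hU g u huU
  have hSst : ∀ g, ∀ s ∈ S, act g s ∈ S := by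
    intro g s hs
    induction hs using AddSubgroup.closure_induction with
    | mem x hx =>
      obtain ⟨h, rfl⟩ := hx
      exact AddSubgroup.subset_closure ⟨g * h, hmul g h u⟩
    | zero => rw [map_zero]; exact S.zero_mem
    | add x y _ _ hx hy => rw [map_add]; exact S.add_mem hx hy
    | neg x _ hx => rw [map_neg]; exact S.neg_mem hx
  have huS : u ∈ S := AddSubgroup.subset_closure ⟨1, h1 u⟩
  have : AddGroup.FG S := by
    rw [AddGroup.fg_iff_addSubgroup_fg]
    exact ⟨(Set.finite_range fun g => act g u).toFinset, by simp [S]⟩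
  have : Finite S := by
    apply AddCommGroup.finite_of_fg_isAddTorsion
    intro s
    rw [isOfFinAddOrder_iff_nsmul_eq_zero]
    exact ⟨p, (Fact.out : p.Prime).pos, Subtype.ext (by simpa using hp (s : A))⟩
  let _ : MulAction G S :=
    { smul := fun g s => ⟨act g s, hSst g s s.2⟩
      one_smul := fun s => Subtype.ext (h1 s)
      mul_smul := fun g h s => Subtype.ext (hmul g h s) }
  have hdvd : p ∣ Nat.card S := by
    have h2 : addOrderOf (⟨u, huS⟩ : S) = p :=
      addOrderOf_eq_prime (Subtype.ext (by simpa using hp u)) (fun h => hu0 (congrArg Subtype.val h))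
    rw [← h2]
    exact addOrderOf_dvd_natCard _
  have h0 : (0 : S) ∈ MulAction.fixedPoints G S := fun g => Subtype.ext (map_zero (act g))
  obtain ⟨b, hb, hb0⟩ := hG.exists_fixed_point_of_prime_dvd_card_of_fixed_point S hdvd h0
  exact ⟨b, hSU b.2, fun h => hb0 (Subtype.ext h.symm), fun g => congrArg Subtype.val (hb g)⟩

end Fixed

section Rep

variable {k G W : Type*} [Field k] [Group G] [Finite G] [AddCommGroup W] [Module k W]

theorem nsmul_eq_zero_of_charP (p : ℕ) [CharP k p] (w : W) : p • w = 0 := by
  rw [← Nat.cast_smul_eq_nsmul k, CharP.cast_eq_zero, zero_smul]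

/-- A nonzero stable subspace of a representation of a finite `p`-group in characteristic `p` contains a nonzero
fixed vector. -/
theorem exists_fixed_ne_zero (p : ℕ) [Fact p.Prime] [CharP k p] (hG : IsPGroup p G)
    (ρ : Representation k G W) (U : Submodule k W) (hU : ∀ g, ∀ u ∈ U, ρ g u ∈ U) (hne : U ≠ ⊥) :
    ∃ u ∈ U, u ≠ 0 ∧ ∀ g, ρ g u = u := by
  refine exists_fixed_add p hG (fun g => (ρ g).toAddMonoidHom) (fun a => by simp)
    (fun g h a => by simp) (nsmul_eq_zero_of_charP (k := k) p) U.toAddSubgroup hU ?_
  intro h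
  apply hne
  rw [eq_bot_iff]
  intro x hx
  have : x ∈ U.toAddSubgroup := hx
  rw [h] at this
  exact this

/-- The augmentation submodule `I_G W`, spanned by the `ρ g w - w`. -/
def aug (ρ : Representation k G W) : Submodule k W :=
  Submodule.span k {x | ∃ g w, x = ρ g w - w}

theorem sub_mem_aug (ρ : Representation k G W) (g : G) (w : W) : ρ g w - w ∈ aug ρ :=
  Submodule.subset_span ⟨g, w, rfl⟩

/-- **Nakayama**: a stable subspace `S` with `S + I_G W = W` is everything. -/
theorem eq_top_of_sup_aug (p : ℕ) [Fact p.Prime] [CharP k p] (hG : IsPGroup p G)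
    (ρ : Representation k G W) (S : Submodule k W) (hS : ∀ g, ∀ u ∈ S, ρ g u ∈ S)
    (hsup : S ⊔ aug ρ = ⊤) : S = ⊤ := by
  by_contra hne
  -- the annihilator of `S` in the dual is stable and nonzero
  let U : Submodule k (Dual k W) := S.dualAnnihilator
  have hUne : U ≠ ⊥ := by
    obtain ⟨f, hf0, hf⟩ := Submodule.exists_le_ker_of_lt_top S (lt_top_iff_ne_top.2 hne)
    intro h
    apply hf0
    have : f ∈ U := (Submodule.mem_dualAnnihilator f).2 fun w hw => hf hw
    rw [h] at this
    exact this
  have hUst : ∀ g, ∀ f ∈ U, ρ.dual g f ∈ U := by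
    intro g f hf
    rw [Submodule.mem_dualAnnihilator] at hf ⊢
    intro w hw
    rw [Representation.dual_apply, Module.Dual.transpose_apply, LinearMap.comp_apply]
    exact hf _ (hS _ _ hw)
  obtain ⟨f, hfU, hf0, hfix⟩ := exists_fixed_ne_zero p hG ρ.dual U hUst hUne
  apply hf0
  have hker : (⊤ : Submodule k W) ≤ LinearMap.ker f := by
    rw [← hsup, sup_le_iff]
    constructor
    · intro w hw
      exact (Submodule.mem_dualAnnihilator f).1 hfU w hw
    · rw [aug, Submodule.span_le]
      rintro _ ⟨g, w, rfl⟩
      have h1 := congrArg (fun F : Dual k W => F w) (hfix g⁻¹)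
      simp only [Representation.dual_apply, Module.Dual.transpose_apply, LinearMap.comp_apply,
        inv_inv] at h1
      show f (ρ g w - w) = 0
      rw [map_sub, h1, sub_self]
  exact LinearMap.ext fun w => hker (Submodule.mem_top (x := w))

/-- **Nakayama**: generators of the coinvariants generate `W` over `k[G]`. -/
theorem span_orbit_eq_top (p : ℕ) [Fact p.Prime] [CharP k p] (hG : IsPGroup p G)
    (ρ : Representation k G W) {ι : Type*} (w : ι → W)
    (hw : Submodule.span k (Set.range w) ⊔ aug ρ = ⊤) :
    Submodule.span k (Set.range fun x : G × ι => ρ x.1 (w x.2)) = ⊤ := by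
  apply eq_top_of_sup_aug p hG ρ
  · intro g u hu
    induction hu using Submodule.span_induction with
    | mem x hx =>
      obtain ⟨⟨h, i⟩, rfl⟩ := hx
      refine Submodule.subset_span ⟨(g * h, i), ?_⟩
      simp
    | zero => rw [map_zero]; exact Submodule.zero_mem _
    | add x y _ _ hx hy => rw [map_add]; exact Submodule.add_mem _ hx hy
    | smul a x _ hx => rw [map_smul]; exact Submodule.smul_mem _ _ hx
  · rw [eq_top_iff, ← hw]
    refine sup_le_sup_right ?_ _
    rw [Submodule.span_le]
    rintro _ ⟨i, rfl⟩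
    refine Submodule.subset_span ⟨(1, i), ?_⟩
    simp

end Rep

section Free

variable {k G W : Type*} [Field k] [Group G] [Fintype G] [AddCommGroup W] [Module k W]

/-- The norm `∑ g`. -/
def Nm (ρ : Representation k G W) : W →ₗ[k] W := ∑ g, ρ g

theorem Nm_apply (ρ : Representation k G W) (w : W) : Nm ρ w = ∑ g, ρ g w := by
  rw [Nm, LinearMap.sum_apply]

/-- The translation representation on functions `G × ι → k`. -/
def transl (k G ι : Type*) [Field k] [Group G] : Representation k G (G × ι → k) where
  toFun h := LinearMap.funLeft k k (fun x : G × ι => (h⁻¹ * x.1, x.2))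
  map_one' := by
    ext c x
    simp [LinearMap.funLeft_apply]
  map_mul' h₁ h₂ := by
    ext c x
    simp [LinearMap.funLeft_apply, mul_assoc]

theorem transl_apply {ι : Type*} (h : G) (c : G × ι → k) (x : G × ι) :
    transl k G ι h c x = c (h⁻¹ * x.1, x.2) := rfl

/-- **Independence**: if `Nm` is injective modulo `I_G W` and the `w i` are independent modulo `I_G W`, the
`ρ g (w i)` are linearly independent. -/
theorem linearIndependent_orbit (p : ℕ) [Fact p.Prime] [CharP k p] (hG : IsPGroup p G)
    (ρ : Representation k G W) (hinj : ∀ w, Nm ρ w = 0 → w ∈ aug ρ) {ι : Type*} [Fintype ι]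
    (w : ι → W) (hw : ∀ c : ι → k, ∑ i, c i • w i ∈ aug ρ → c = 0) :
    LinearIndependent k (fun x : G × ι => ρ x.1 (w x.2)) := by
  classical
  rw [Fintype.linearIndependent_iff]
  let F : (G × ι → k) →ₗ[k] W := Fintype.linearCombination k (fun x : G × ι => ρ x.1 (w x.2))
  have hF : ∀ c, F c = ∑ x : G × ι, c x • ρ x.1 (w x.2) := fun c =>
    Fintype.linearCombination_apply _ _ _
  have hker : LinearMap.ker F = ⊥ := by
    by_contra hne
    have hst : ∀ g, ∀ c ∈ LinearMap.ker F, transl k G ι g c ∈ LinearMap.ker F := by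
      intro g c hc
      rw [LinearMap.mem_ker, hF] at hc ⊢
      have h1 : ∑ x : G × ι, transl k G ι g c x • ρ x.1 (w x.2)
          = ρ g (∑ x : G × ι, c x • ρ x.1 (w x.2)) := by
        rw [map_sum]
        refine Fintype.sum_equiv ((Equiv.mulLeft g⁻¹).prodCongr (Equiv.refl ι)) _ _ ?_
        rintro ⟨h, i⟩
        simp only [transl_apply, Equiv.prodCongr_apply, Prod.map_apply, Equiv.coe_mulLeft,
          Equiv.refl_apply, map_smul]
        rw [← Module.End.mul_apply, ← map_mul, mul_inv_cancel_left]
      rw [h1, hc, map_zero]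
    obtain ⟨c, hc, hc0, hfix⟩ := exists_fixed_ne_zero p hG (transl k G ι) _ hst hne
    apply hc0
    have hconst : ∀ g i, c (g, i) = c (1, i) := by
      intro g i
      have := congrFun (hfix g) (g, i)
      rw [transl_apply] at this
      simpa using this.symm
    have h0 : (fun i => c (1, i)) = 0 := by
      apply hw
      apply hinj
      rw [LinearMap.mem_ker, hF, Fintype.sum_prod_type] at hc
      rw [Nm_apply, ← hc]
      refine Finset.sum_congr rfl fun g _ => ?_
      rw [map_sum]
      refine Finset.sum_congr rfl fun i _ => ?_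
      rw [map_smul, hconst g i]
    funext ⟨g, i⟩
    rw [hconst g i]
    exact congrFun h0 i
  intro c hc x
  have : c ∈ LinearMap.ker F := by rw [LinearMap.mem_ker, hF]; exact hc
  rw [hker] at this
  exact congrFun this x

/-- **Freeness criterion.**  `G` a finite `p`-group, `k` of characteristic `p`, `W` finite dimensional.  If
`Nm w = 0 → w ∈ I_G W`, then `W` is free over `k[G]`: there is a family `w : Fin d → W`, `d = dim W_G`, such that
`(g, i) ↦ ρ g (w i)` is a `k`-basis of `W`. -/
theorem free_of_Nm_inj [FiniteDimensional k W] (p : ℕ) [Fact p.Prime] [CharP k p]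
    (hG : IsPGroup p G) (ρ : Representation k G W) (hinj : ∀ w, Nm ρ w = 0 → w ∈ aug ρ) :
    ∃ (w : Fin (finrank k (W ⧸ aug ρ)) → W),
      LinearIndependent k (fun x : G × Fin (finrank k (W ⧸ aug ρ)) => ρ x.1 (w x.2)) ∧
      Submodule.span k (Set.range fun x : G × Fin (finrank k (W ⧸ aug ρ)) => ρ x.1 (w x.2)) = ⊤ := by
  let b := Module.finBasis k (W ⧸ aug ρ)
  choose w hw using fun i => Submodule.Quotient.mk_surjective (aug ρ) (b i)
  refine ⟨w, linearIndependent_orbit p hG ρ hinj w ?_, span_orbit_eq_top p hG ρ w ?_⟩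
  · intro c hc
    have h1 : ∑ i, c i • b i = 0 := by
      rw [← (Submodule.Quotient.mk_eq_zero (aug ρ)).2 hc]
      simp only [← hw]
      rw [← Submodule.mkQ_apply, map_sum]
      rfl
    funext i
    exact Fintype.linearIndependent_iff.1 b.linearIndependent c h1 i
  · rw [eq_top_iff]
    intro x _
    have hx : (aug ρ).mkQ x ∈ Submodule.span k (Set.range b) := by rw [b.span_eq]; trivial
    have hb : Set.range b = (aug ρ).mkQ '' Set.range w := by
      rw [← Set.range_comp]
      congr 1
      funext i
      exact (hw i).symm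
    rw [hb, ← Submodule.map_span] at hx
    obtain ⟨y, hy, hxy⟩ := hx
    have h2 : x - y ∈ aug ρ := by
      rw [← Submodule.Quotient.mk_eq_zero, Submodule.Quotient.mk_sub, sub_eq_zero]
      exact hxy.symm
    have : x = y + (x - y) := by abel
    rw [this]
    exact Submodule.add_mem _ (Submodule.mem_sup_left hy) (Submodule.mem_sup_right h2)

end Free

end Fermat.Agent.S43.Free.Alg
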