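import Fermat.Agent.S43.Free.Alg

/-!
# S43 / Free / Alg2 : complements to `Alg.lean`

* `finrank_le_card_mul`  : `dim W ≤ |G| · dim W_G`;
* `finrank_eq_of_free`   : `dim W = |G| · dim W_G` under the norm criterion;
* `Nm_inj_of_surj`       : `Nm W = W^G` and `dim W_G ≤ dim W^G` imply the norm criterion;
* `Nm_inj_of_finrank`    : `dim W = |G| · dim W_G` implies the norm criterion;
* `invariants_eq_Nm`     : under the norm criterion `W^G = Nm W`;
* `Nm_ne_zero`           : under the norm criterion `Nm ≠ 0` if `W ≠ 0`.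
-/

set_option autoImplicit false

namespace Fermat.Agent.S43.Free.Alg

open Module

variable {k G W : Type*} [Field k] [Group G] [Fintype G] [AddCommGroup W] [Module k W]

theorem Nm_rho (ρ : Representation k G W) (g : G) (w : W) : Nm ρ (ρ g w) = Nm ρ w := by
  rw [Nm_apply, Nm_apply]
  refine Fintype.sum_equiv (Equiv.mulRight g) _ _ fun h => ?_
  rw [Equiv.coe_mulRight, map_mul, Module.End.mul_apply]

theorem rho_Nm (ρ : Representation k G W) (g : G) (w : W) : ρ g (Nm ρ w) = Nm ρ w := by
  rw [Nm_apply, map_sum]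
  refine Fintype.sum_equiv (Equiv.mulLeft g) _ _ fun h => ?_
  rw [Equiv.coe_mulLeft, map_mul, Module.End.mul_apply]

theorem aug_le_ker_Nm (ρ : Representation k G W) : aug ρ ≤ LinearMap.ker (Nm ρ) := by
  rw [aug, Submodule.span_le]
  rintro _ ⟨g, w, rfl⟩
  show Nm ρ (ρ g w - w) = 0
  rw [map_sub, Nm_rho, sub_self]

/-- `dim W ≤ |G| · dim W_G`. -/
theorem finrank_le_card_mul [FiniteDimensional k W] (p : ℕ) [Fact p.Prime] [CharP k p]
    (hG : IsPGroup p G) (ρ : Representation k G W) :
    finrank k W ≤ Fintype.card G * finrank k (W ⧸ aug ρ) := by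
  let b := Module.finBasis k (W ⧸ aug ρ)
  choose w hw using fun i => Submodule.Quotient.mk_surjective (aug ρ) (b i)
  have hspan : Submodule.span k (Set.range w) ⊔ aug ρ = ⊤ := by
    rw [eq_top_iff]
    intro x _
    have hx : (aug ρ).mkQ x ∈ Submodule.span k (Set.range b) := by rw [b.span_eq]; trivial
    have hb : Set.range b = (aug ρ).mkQ '' Set.range w := by
      rw [← Set.range_comp]
      congr 1
      funext i
      exact (hw i).symm
    rw [hb, ← Submodule.map_span] at hx
    obtain ⟨y, hy, hxy⟩ := hx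
    have h2 : x - y ∈ aug ρ := by
      rw [← Submodule.Quotient.mk_eq_zero, Submodule.Quotient.mk_sub, sub_eq_zero]
      exact hxy.symm
    have : x = y + (x - y) := by abel
    rw [this]
    exact Submodule.add_mem _ (Submodule.mem_sup_left hy) (Submodule.mem_sup_right h2)
  have h := span_orbit_eq_top p hG ρ w hspan
  have h1 := finrank_range_le_card (R := k) (fun x : G × Fin (finrank k (W ⧸ aug ρ)) => ρ x.1 (w x.2))
  rw [Set.finrank, h, finrank_top] at h1
  simpa using h1

/-- Under the norm criterion `dim W = |G| · dim W_G`. -/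
theorem finrank_eq_of_Nm_inj [FiniteDimensional k W] (p : ℕ) [Fact p.Prime] [CharP k p]
    (hG : IsPGroup p G) (ρ : Representation k G W) (hinj : ∀ w, Nm ρ w = 0 → w ∈ aug ρ) :
    finrank k W = Fintype.card G * finrank k (W ⧸ aug ρ) := by
  obtain ⟨w, hli, hsp⟩ := free_of_Nm_inj p hG ρ hinj
  have := finrank_eq_card_basis (Basis.mk hli hsp.ge)
  simpa using this

/-- `Nm W = W^G` and `dim W_G ≤ dim W^G` imply the norm criterion. -/
theorem Nm_inj_of_surj [FiniteDimensional k W] (ρ : Representation k G W)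
    (hsurj : ∀ v, (∀ g, ρ g v = v) → ∃ w, Nm ρ w = v)
    (hdim : finrank k (W ⧸ aug ρ) ≤ finrank k ρ.invariants) :
    ∀ w, Nm ρ w = 0 → w ∈ aug ρ := by
  let N1 : W →ₗ[k] ρ.invariants := (Nm ρ).codRestrict _ fun w g => rho_Nm ρ g w
  let N2 : (W ⧸ aug ρ) →ₗ[k] ρ.invariants := (aug ρ).liftQ N1 (by
    intro w hw
    rw [LinearMap.mem_ker]
    exact Subtype.ext (aug_le_ker_Nm ρ hw))
  have hs : Function.Surjective N2 := by
    rintro ⟨v, hv⟩
    obtain ⟨w, hw⟩ := hsurj v hv
    exact ⟨Submodule.Quotient.mk w, Subtype.ext hw⟩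
  have hd : finrank k (W ⧸ aug ρ) = finrank k ρ.invariants :=
    le_antisymm hdim (LinearMap.finrank_le_finrank_of_surjective hs)
  have hi : Function.Injective N2 :=
    (LinearMap.injective_iff_surjective_of_finrank_eq_finrank hd).2 hs
  intro w hw
  rw [← Submodule.Quotient.mk_eq_zero]
  apply hi
  rw [map_zero]
  exact Subtype.ext hw

/-- Under the norm criterion `W^G = Nm W`. -/
theorem invariants_eq_Nm [FiniteDimensional k W] (p : ℕ) [Fact p.Prime] [CharP k p]
    (hG : IsPGroup p G) (ρ : Representation k G W) (hinj : ∀ w, Nm ρ w = 0 → w ∈ aug ρ)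
    (v : W) (hv : ∀ g, ρ g v = v) : ∃ w, Nm ρ w = v := by
  classical
  obtain ⟨w, hli, hsp⟩ := free_of_Nm_inj p hG ρ hinj
  let b := Basis.mk hli hsp.ge
  have hb : ∀ x, b x = ρ x.1 (w x.2) := fun x => Basis.mk_apply hli hsp.ge x
  -- coordinates of `v` are constant along `G`
  have hco : ∀ g h i, b.repr v (g * h, i) = b.repr v (h, i) := by
    intro g h i
    have h1 : ρ g v = ∑ x, b.repr v x • b (g * x.1, x.2) := by
      conv_lhs => rw [← b.sum_repr v]
      rw [map_sum]
      refine Finset.sum_congr rfl fun x _ => ?_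
      rw [map_smul, hb, hb, map_mul, Module.End.mul_apply]
    have h2 : ∑ x, b.repr v x • b (g * x.1, x.2)
        = ∑ x : G × Fin (finrank k (W ⧸ aug ρ)), b.repr v (g⁻¹ * x.1, x.2) • b x := by
      refine Fintype.sum_equiv ((Equiv.mulLeft g).prodCongr (Equiv.refl _)) _ _ ?_
      rintro ⟨h, i⟩
      simp
    rw [hv g, h2] at h1
    have h3 := congrArg (fun z => b.repr z (g * h, i)) h1
    simp only [map_sum, map_smul, Basis.repr_self, Finsupp.coe_finsetSum, Finsupp.coe_smul,
      Finset.sum_apply, Pi.smul_apply, smul_eq_mul] at h3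
    rw [h3, Finset.sum_eq_single (g * h, i)]
    · simp
    · intro x _ hx
      rw [Finsupp.single_apply, if_neg hx, mul_zero]
    · intro hx
      exact absurd (Finset.mem_univ _) hx
  refine ⟨∑ i, b.repr v (1, i) • w i, ?_⟩
  conv_rhs => rw [← b.sum_repr v]
  rw [Nm_apply, Fintype.sum_prod_type]
  refine Finset.sum_congr rfl fun g _ => ?_
  rw [map_sum]
  refine Finset.sum_congr rfl fun i _ => ?_
  have := hco g 1 i
  rw [mul_one] at this
  rw [map_smul, hb, this]

/-- Under the norm criterion `Nm ≠ 0` if `W ≠ 0`. -/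
theorem Nm_ne_zero [FiniteDimensional k W] [Nontrivial W] (p : ℕ) [Fact p.Prime] [CharP k p]
    (hG : IsPGroup p G) (ρ : Representation k G W) (hinj : ∀ w, Nm ρ w = 0 → w ∈ aug ρ) :
    ∃ w, Nm ρ w ≠ 0 := by
  by_contra hcon
  push Not at hcon
  have h1 : aug ρ = ⊤ := eq_top_iff.2 fun w _ => hinj w (hcon w)
  have h2 : (⊥ : Submodule k W) = ⊤ :=
    eq_top_of_sup_aug p hG ρ ⊥ (fun g u hu => by
      rw [Submodule.mem_bot] at hu ⊢
      rw [hu, map_zero]) (by rw [bot_sup_eq, h1])
  exact bot_ne_top h2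

/-- `dim W = |G| · dim W_G` implies the norm criterion. -/
theorem Nm_inj_of_finrank [FiniteDimensional k W] (p : ℕ) [Fact p.Prime] [CharP k p]
    (hG : IsPGroup p G) (ρ : Representation k G W)
    (hdim : Fintype.card G * finrank k (W ⧸ aug ρ) ≤ finrank k W) :
    ∀ w, Nm ρ w = 0 → w ∈ aug ρ := by
  classical
  let b := Module.finBasis k (W ⧸ aug ρ)
  choose w hw using fun i => Submodule.Quotient.mk_surjective (aug ρ) (b i)
  have hspan : Submodule.span k (Set.range w) ⊔ aug ρ = ⊤ := by
    rw [eq_top_iff]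
    intro x _
    have hx : (aug ρ).mkQ x ∈ Submodule.span k (Set.range b) := by rw [b.span_eq]; trivial
    have hb : Set.range b = (aug ρ).mkQ '' Set.range w := by
      rw [← Set.range_comp]
      congr 1
      funext i
      exact (hw i).symm
    rw [hb, ← Submodule.map_span] at hx
    obtain ⟨y, hy, hxy⟩ := hx
    have h2 : x - y ∈ aug ρ := by
      rw [← Submodule.Quotient.mk_eq_zero, Submodule.Quotient.mk_sub, sub_eq_zero]
      exact hxy.symm
    have : x = y + (x - y) := by abel
    rw [this]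
    exact Submodule.add_mem _ (Submodule.mem_sup_left hy) (Submodule.mem_sup_right h2)
  have hsp := span_orbit_eq_top p hG ρ w hspan
  have hli : LinearIndependent k (fun x : G × Fin (finrank k (W ⧸ aug ρ)) => ρ x.1 (w x.2)) := by
    apply linearIndependent_of_top_le_span_of_card_eq_finrank hsp.ge
    apply le_antisymm
    · simpa using hdim
    · simpa using finrank_le_card_mul p hG ρ
  intro v hv
  -- write `v` modulo `aug` as `∑ c i • w i`
  have hv1 : ∃ c : Fin (finrank k (W ⧸ aug ρ)) → k, v - ∑ i, c i • w i ∈ aug ρ := by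
    refine ⟨fun i => b.repr (Submodule.Quotient.mk v) i, ?_⟩
    rw [← Submodule.Quotient.mk_eq_zero, Submodule.Quotient.mk_sub, sub_eq_zero]
    conv_lhs => rw [← b.sum_repr (Submodule.Quotient.mk v)]
    simp only [← hw]
    have h9 : ∀ z : W, (Submodule.Quotient.mk z : W ⧸ aug ρ) = (aug ρ).mkQ z := fun _ => rfl
    simp only [h9, map_sum, map_smul]
  obtain ⟨c, hc⟩ := hv1
  have h3 : Nm ρ (∑ i, c i • w i) = 0 := by
    have := aug_le_ker_Nm ρ hc
    rw [LinearMap.mem_ker, map_sub, hv, zero_sub, neg_eq_zero] at this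
    exact this
  have h4 : ∑ x : G × Fin (finrank k (W ⧸ aug ρ)), c x.2 • ρ x.1 (w x.2) = 0 := by
    rw [Fintype.sum_prod_type, ← h3, Nm_apply]
    refine Finset.sum_congr rfl fun g _ => ?_
    rw [map_sum]
    refine Finset.sum_congr rfl fun i _ => ?_
    rw [map_smul]
  have h5 := Fintype.linearIndependent_iff.1 hli (fun x => c x.2) h4
  have h6 : ∑ i, c i • w i = 0 := Finset.sum_eq_zero fun i _ => by rw [h5 (1, i), zero_smul]
  rw [h6, sub_zero] at hc
  exact hc

end Fermat.Agent.S43.Free.Alg
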