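import Mathlib

set_option autoImplicit false
set_option linter.unusedSectionVars false

/-!
# Modular representations of a finite `p`-group: freeness criteria

`G` a finite `p`-group, `k` a field of characteristic `p`, `ρ : Representation k G W`.
We use Mathlib's `ρ.invariants`, `Representation.Coinvariants.ker ρ` (the augmentation submodule
`I_G W`) and `ρ.norm`.
-/

namespace Fermat.Agent.S43.Free.Alg3

open Module Representation

variable {k : Type*} {G : Type*} {W : Type*} [Field k] [Group G] [AddCommGroup W] [Module k W]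

/-- `W` is a free `k[G]`-module of rank `n`, in basis form. -/
def IsFreeRep (ρ : Representation k G W) (n : ℕ) : Prop :=
  ∃ b : Basis (G × Fin n) k W, ∀ (g h : G) (i : Fin n), ρ g (b (h, i)) = b (g * h, i)

/-- a nonzero stable subspace contains a nonzero fixed vector (`G` a finite `p`-group, `char k = p`). -/
theorem exists_fixed_ne_zero (p : ℕ) [hp : Fact p.Prime] [CharP k p] [Finite G] (hG : IsPGroup p G)
    (ρ : Representation k G W) (U : Submodule k W) (hU : ∀ g, ∀ u ∈ U, ρ g u ∈ U) (hU0 : U ≠ ⊥) :
    ∃ u ∈ U, u ≠ 0 ∧ ∀ g, ρ g u = u := by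
  obtain ⟨u, huU, hu0⟩ := Submodule.exists_mem_ne_zero_of_ne_bot hU0
  -- the additive group generated by the orbit
  set S : Set W := Set.range fun g : G => ρ g u with hS
  set A : AddSubgroup W := AddSubgroup.closure S with hA
  have hAU : ∀ a ∈ A, a ∈ U := by
    intro a ha
    have : A ≤ U.toAddSubgroup := by
      rw [hA, AddSubgroup.closure_le]
      rintro _ ⟨g, rfl⟩
      exact hU g u huU
    exact this ha
  have hstab : ∀ g : G, ∀ a ∈ A, ρ g a ∈ A := by
    intro g a ha
    induction ha using AddSubgroup.closure_induction with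
    | mem x hx =>
      obtain ⟨h, rfl⟩ := hx
      apply AddSubgroup.subset_closure
      exact ⟨g * h, by simp [map_mul]⟩
    | zero => rw [map_zero]; exact A.zero_mem
    | add x y _ _ hx hy => rw [map_add]; exact A.add_mem hx hy
    | neg x _ hx => rw [map_neg]; exact A.neg_mem hx
  have hpW : ∀ w : W, p • w = 0 := by
    intro w
    rw [← Nat.cast_smul_eq_nsmul k, CharP.cast_eq_zero, zero_smul]
  have hSfin : Finite S := Set.finite_range _
  have hfg : AddGroup.FG A := AddGroup.closure_finite_fg S
  have htor : IsAddTorsion A := by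
    intro a
    rw [isOfFinAddOrder_iff_nsmul_eq_zero]
    exact ⟨p, hp.out.pos, Subtype.ext (by simpa using hpW a)⟩
  have hfin : Finite A := AddCommGroup.finite_of_fg_isAddTorsion A htor
  let _ : MulAction G A :=
    { smul := fun g a => ⟨ρ g a, hstab g a a.2⟩
      one_smul := fun a => Subtype.ext (by show ρ 1 (a : W) = a; simp)
      mul_smul := fun g h a => Subtype.ext (by show ρ (g * h) (a : W) = ρ g (ρ h a); simp [map_mul]) }
  have huA : u ∈ A := AddSubgroup.subset_closure ⟨1, by simp⟩
  have hcard : p ∣ Nat.card A := by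
    have h1 : addOrderOf (⟨u, huA⟩ : A) = p := by
      apply addOrderOf_eq_prime
      · exact Subtype.ext (by simpa using hpW u)
      · intro h
        exact hu0 (congrArg Subtype.val h)
    rw [← h1]
    exact addOrderOf_dvd_natCard _
  have h0 : (0 : A) ∈ MulAction.fixedPoints G A := by
    intro g
    exact Subtype.ext (by show ρ g ((0 : A) : W) = ((0 : A) : W); simp)
  obtain ⟨b, hb, hb0⟩ := hG.exists_fixed_point_of_prime_dvd_card_of_fixed_point A hcard h0
  refine ⟨b, hAU b b.2, fun h => hb0 (Subtype.ext h.symm), fun g => ?_⟩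
  exact congrArg Subtype.val (hb g)

/-- Nakayama for `p`-groups: a stable subspace which generates the coinvariants is everything. -/
theorem eq_top_of_sup_aug_eq_top (p : ℕ) [hp : Fact p.Prime] [CharP k p] [Finite G]
    (hG : IsPGroup p G) (ρ : Representation k G W) (U : Submodule k W)
    (hU : ∀ g, ∀ u ∈ U, ρ g u ∈ U) (hsup : U ⊔ Coinvariants.ker ρ = ⊤) : U = ⊤ := by
  by_contra hne
  obtain ⟨φ0, hφ0, hφU⟩ := Submodule.exists_le_ker_of_lt_top U (lt_top_iff_ne_top.mpr hne)
  have hAnn0 : U.dualAnnihilator ≠ ⊥ := by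
    intro h
    apply hφ0
    have : φ0 ∈ U.dualAnnihilator := by
      rw [Submodule.mem_dualAnnihilator]
      intro w hw
      exact hφU hw
    rw [h] at this
    simpa using this
  obtain ⟨φ, hφ, hφne, hφfix⟩ := exists_fixed_ne_zero p hG ρ.dual U.dualAnnihilator (by
    intro g ψ hψ
    rw [Submodule.mem_dualAnnihilator] at hψ ⊢
    intro w hw
    exact hψ _ (hU g⁻¹ w hw)) hAnn0
  apply hφne
  have hker : U ⊔ Coinvariants.ker ρ ≤ LinearMap.ker φ := by
    rw [sup_le_iff]
    constructor
    · intro w hw
      rw [Submodule.mem_dualAnnihilator] at hφ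
      exact hφ w hw
    · rw [Coinvariants.ker, Submodule.span_le]
      rintro _ ⟨⟨g, w⟩, rfl⟩
      have := LinearMap.congr_fun (hφfix g⁻¹) w
      simp only [dual_apply, inv_inv] at this
      change φ (ρ g w) = φ w at this
      simp [this]
  rw [hsup, top_le_iff, LinearMap.ker_eq_top] at hker
  exact hker

/-- the family `(g, i) ↦ ρ g (w i)`. -/
def orbFam {ι : Type*} (ρ : Representation k G W) (w : ι → W) : G × ι → W :=
  fun x => ρ x.1 (w x.2)

/-- the "regular" representation on `G × ι →₀ k`. -/
noncomputable def regRep (k : Type*) (G : Type*) (ι : Type*) [Field k] [Group G] :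
    Representation k G (G × ι →₀ k) where
  toFun g := Finsupp.lmapDomain k k (fun x : G × ι => (g * x.1, x.2))
  map_one' := by
    apply LinearMap.ext
    intro c
    simp only [one_mul, Finsupp.lmapDomain_apply, Module.End.one_apply]
    exact Finsupp.mapDomain_id
  map_mul' g h := by
    apply LinearMap.ext
    intro c
    simp only [Finsupp.lmapDomain_apply, Module.End.mul_apply]
    rw [← Finsupp.mapDomain_comp]
    congr 1
    ext x <;> simp [mul_assoc]

theorem regRep_apply {ι : Type*} (g : G) (c : G × ι →₀ k) :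
    regRep k G ι g c = Finsupp.mapDomain (fun x : G × ι => (g * x.1, x.2)) c := rfl

theorem linearCombination_regRep {ι : Type*} (ρ : Representation k G W) (w : ι → W) (g : G)
    (c : G × ι →₀ k) :
    Finsupp.linearCombination k (orbFam ρ w) (regRep k G ι g c)
      = ρ g (Finsupp.linearCombination k (orbFam ρ w) c) := by
  rw [regRep_apply, Finsupp.linearCombination_mapDomain, LinearMap.map_finsupp_linearCombination]
  congr 1
  ext x
  simp [orbFam, map_mul]

theorem span_orbFam_eq_top (p : ℕ) [hp : Fact p.Prime] [CharP k p] [Finite G]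
    (hG : IsPGroup p G) (ρ : Representation k G W) {ι : Type*} (w : ι → W)
    (hw : Submodule.span k (Set.range w) ⊔ Coinvariants.ker ρ = ⊤) :
    Submodule.span k (Set.range (orbFam ρ w)) = ⊤ := by
  apply eq_top_of_sup_aug_eq_top p hG ρ
  · intro g u hu
    rw [← Finsupp.range_linearCombination] at hu ⊢
    obtain ⟨c, rfl⟩ := hu
    exact ⟨regRep k G ι g c, linearCombination_regRep ρ w g c⟩
  · rw [eq_top_iff, ← hw]
    apply sup_le_sup_right
    apply Submodule.span_mono
    rintro _ ⟨i, rfl⟩
    exact ⟨(1, i), by simp [orbFam]⟩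

theorem linearIndependent_orbFam (p : ℕ) [hp : Fact p.Prime] [CharP k p] [Fintype G]
    (hG : IsPGroup p G) (ρ : Representation k G W) {ι : Type*} [Fintype ι] (w : ι → W)
    (hw : LinearIndependent k (fun i => (Coinvariants.ker ρ).mkQ (w i)))
    (hnm : ∀ x, ρ.norm x = 0 → x ∈ Coinvariants.ker ρ) :
    LinearIndependent k (orbFam ρ w) := by
  rw [linearIndependent_iff_ker]
  by_contra hne
  obtain ⟨c, hc, hc0, hfix⟩ := exists_fixed_ne_zero p hG (regRep k G ι) _ (by
    intro g c hc
    rw [LinearMap.mem_ker] at hc ⊢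
    rw [linearCombination_regRep, hc, map_zero]) hne
  apply hc0
  have hinv : ∀ (g : G) (i : ι), c (g, i) = c (1, i) := by
    intro g i
    have h1 := hfix g
    rw [regRep_apply] at h1
    have h2 : Finsupp.mapDomain (fun x : G × ι => (g * x.1, x.2)) c (g * 1, i) = c (1, i) := by
      have hinj : Function.Injective (fun x : G × ι => (g * x.1, x.2)) := by
        rintro ⟨a, i⟩ ⟨b, j⟩ h
        simp only [Prod.mk.injEq, mul_right_inj] at h
        exact Prod.ext h.1 h.2
      exact Finsupp.mapDomain_apply hinj c (1, i)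
    rw [h1, mul_one] at h2
    exact h2
  rw [LinearMap.mem_ker, Finsupp.linearCombination_apply, Finsupp.sum_fintype _ _ (by simp),
    Fintype.sum_prod_type] at hc
  have h3 : ρ.norm (∑ i, c (1, i) • w i) = 0 := by
    rw [← hc]
    simp only [Representation.norm, LinearMap.sum_apply, map_sum, map_smul, orbFam, hinv,
      Finset.smul_sum]
    exact Finset.sum_comm
  have h4 := hnm _ h3
  have h5 : ∑ i, c (1, i) • (Coinvariants.ker ρ).mkQ (w i) = 0 := by
    rw [← Submodule.Quotient.mk_eq_zero, ← Submodule.mkQ_apply] at h4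
    simpa using h4
  have h6 := Fintype.linearIndependent_iff.mp hw _ h5
  ext ⟨g, i⟩
  rw [hinv, h6]
  rfl

/-- lifts of a basis of the coinvariants. -/
theorem exists_lifts [Module.Finite k W] (ρ : Representation k G W) :
    ∃ w : Fin (finrank k (W ⧸ Coinvariants.ker ρ)) → W,
      LinearIndependent k (fun i => (Coinvariants.ker ρ).mkQ (w i)) ∧
      Submodule.span k (Set.range w) ⊔ Coinvariants.ker ρ = ⊤ := by
  set b := finBasis k (W ⧸ Coinvariants.ker ρ) with hb
  choose w hw using fun i => Submodule.mkQ_surjective (Coinvariants.ker ρ) (b i)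
  have hfun : (fun i => (Coinvariants.ker ρ).mkQ (w i)) = b := funext hw
  refine ⟨w, ?_, ?_⟩
  · rw [hfun]
    exact b.linearIndependent
  · rw [sup_comm, ← Submodule.comap_map_mkQ, Submodule.map_span, ← Set.range_comp]
    have : (⇑(Coinvariants.ker ρ).mkQ ∘ w) = b := hfun
    rw [this, b.span_eq, Submodule.comap_top]

/-- (a) `dim W ≤ |G| · dim W_G`. -/
theorem finrank_le_card_mul_finrank_coinvariants (p : ℕ) [hp : Fact p.Prime] [CharP k p] [Finite G]
    (hG : IsPGroup p G) [Module.Finite k W] (ρ : Representation k G W) :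
    finrank k W ≤ Nat.card G * finrank k (W ⧸ Coinvariants.ker ρ) := by
  have := Fintype.ofFinite G
  obtain ⟨w, -, hw⟩ := exists_lifts ρ
  have h1 := span_orbFam_eq_top p hG ρ w hw
  have h2 := finrank_range_le_card (R := k) (orbFam ρ w)
  rw [Set.finrank, h1, finrank_top] at h2
  simpa [Nat.card_eq_fintype_card] using h2

theorem isFreeRep_of_basis_orbFam (ρ : Representation k G W) {n : ℕ} (w : Fin n → W)
    (h1 : LinearIndependent k (orbFam ρ w)) (h2 : Submodule.span k (Set.range (orbFam ρ w)) = ⊤) :
    IsFreeRep ρ n := by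
  refine ⟨Basis.mk h1 h2.ge, fun g h i => ?_⟩
  simp [Basis.mk_apply, orbFam, map_mul]

/-- (b) if `Nm : W_G → W` is injective then `W` is free over `k[G]` of rank `dim W_G`. -/
theorem isFreeRep_of_norm (p : ℕ) [hp : Fact p.Prime] [CharP k p] [Fintype G]
    (hG : IsPGroup p G) [Module.Finite k W] (ρ : Representation k G W)
    (hnm : ∀ x, ρ.norm x = 0 → x ∈ Coinvariants.ker ρ) :
    IsFreeRep ρ (finrank k (W ⧸ Coinvariants.ker ρ)) := by
  obtain ⟨w, hw1, hw2⟩ := exists_lifts ρ
  exact isFreeRep_of_basis_orbFam ρ w (linearIndependent_orbFam p hG ρ w hw1 hnm)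
    (span_orbFam_eq_top p hG ρ w hw2)

/-- (b') if `dim W = |G| · dim W_G` then `W` is free over `k[G]` of rank `dim W_G`. -/
theorem isFreeRep_of_finrank_eq_coinvariants (p : ℕ) [hp : Fact p.Prime] [CharP k p] [Finite G]
    (hG : IsPGroup p G) [Module.Finite k W] (ρ : Representation k G W)
    (hdim : finrank k W = Nat.card G * finrank k (W ⧸ Coinvariants.ker ρ)) :
    IsFreeRep ρ (finrank k (W ⧸ Coinvariants.ker ρ)) := by
  have := Fintype.ofFinite G
  obtain ⟨w, -, hw2⟩ := exists_lifts ρ
  have h2 := span_orbFam_eq_top p hG ρ w hw2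
  refine isFreeRep_of_basis_orbFam ρ w ?_ h2
  apply linearIndependent_of_top_le_span_of_card_eq_finrank h2.ge
  rw [hdim]
  simp [Nat.card_eq_fintype_card]

/-- the map `W → (G → W^G)`, `x ↦ (g ↦ π (g x))` attached to a linear map `π`. -/
noncomputable def coindMap {V : Type*} [AddCommGroup V] [Module k V] (ρ : Representation k G W)
    (π : W →ₗ[k] V) : W →ₗ[k] (G → V) :=
  LinearMap.pi fun g => π ∘ₗ ρ g

theorem coindMap_apply {V : Type*} [AddCommGroup V] [Module k V] (ρ : Representation k G W)
    (π : W →ₗ[k] V) (x : W) (g : G) : coindMap ρ π x g = π (ρ g x) := rfl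

theorem coindMap_rho {V : Type*} [AddCommGroup V] [Module k V] (ρ : Representation k G W)
    (π : W →ₗ[k] V) (x : W) (g h : G) : coindMap ρ π (ρ h x) g = coindMap ρ π x (g * h) := by
  simp [coindMap_apply, map_mul]

theorem coindMap_injective (p : ℕ) [hp : Fact p.Prime] [CharP k p] [Finite G]
    (hG : IsPGroup p G) (ρ : Representation k G W) {V : Type*} [AddCommGroup V] [Module k V]
    (π : W →ₗ[k] V) (hπ : ∀ x ∈ ρ.invariants, π x = 0 → x = 0) :
    Function.Injective (coindMap ρ π) := by
  rw [← LinearMap.ker_eq_bot]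
  by_contra hne
  obtain ⟨u, hu, hu0, hfix⟩ := exists_fixed_ne_zero p hG ρ _ (by
    intro g u hu
    rw [LinearMap.mem_ker] at hu ⊢
    ext a
    rw [coindMap_rho, hu]
    rfl) hne
  apply hu0
  apply hπ u hfix
  rw [LinearMap.mem_ker] at hu
  have := congrFun hu 1
  simpa [coindMap_apply] using this

theorem exists_retraction (ρ : Representation k G W) :
    ∃ π : W →ₗ[k] ρ.invariants, ∀ x : ρ.invariants, π x = x := by
  obtain ⟨π, hπ⟩ := LinearMap.exists_leftInverse_of_injective ρ.invariants.subtype
    (Submodule.ker_subtype _)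
  exact ⟨π, fun x => LinearMap.congr_fun hπ x⟩

/-- (a*) `dim W ≤ |G| · dim W^G`. -/
theorem finrank_le_card_mul_finrank_invariants (p : ℕ) [hp : Fact p.Prime] [CharP k p] [Finite G]
    (hG : IsPGroup p G) [Module.Finite k W] (ρ : Representation k G W) :
    finrank k W ≤ Nat.card G * finrank k ρ.invariants := by
  have := Fintype.ofFinite G
  obtain ⟨π, hπ⟩ := exists_retraction ρ
  have hinj := coindMap_injective p hG ρ π (by
    intro x hx h0
    have := hπ ⟨x, hx⟩
    rw [h0] at this
    exact (congrArg Subtype.val this).symm)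
  have := LinearMap.finrank_le_finrank_of_injective hinj
  simpa [Module.finrank_pi_fintype, Nat.card_eq_fintype_card] using this

/-- (b*) if `dim W = |G| · dim W^G` then `W` is free over `k[G]` of rank `dim W^G`. -/
theorem isFreeRep_of_finrank_eq_invariants (p : ℕ) [hp : Fact p.Prime] [CharP k p] [Finite G]
    (hG : IsPGroup p G) [Module.Finite k W] (ρ : Representation k G W)
    (hdim : finrank k W = Nat.card G * finrank k ρ.invariants) :
    IsFreeRep ρ (finrank k ρ.invariants) := by
  classical
  have := Fintype.ofFinite G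
  obtain ⟨π, hπ⟩ := exists_retraction ρ
  have hinj := coindMap_injective p hG ρ π (by
    intro x hx h0
    have := hπ ⟨x, hx⟩
    rw [h0] at this
    exact (congrArg Subtype.val this).symm)
  have hd : finrank k W = finrank k (G → ρ.invariants) := by
    rw [hdim]
    simp [Module.finrank_pi_fintype, Nat.card_eq_fintype_card]
  set F : W ≃ₗ[k] (G → ρ.invariants) := LinearMap.linearEquivOfInjective _ hinj hd with hF
  have hFa : ∀ x, F x = coindMap ρ π x := fun x => LinearMap.linearEquivOfInjective_apply _ _ _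
  set e := finBasis k ρ.invariants with he
  set b0 : Basis (Σ _ : G, Fin (finrank k ρ.invariants)) k (G → ρ.invariants) :=
    Pi.basis (fun _ : G => e) with hb0
  set σ : (Σ _ : G, Fin (finrank k ρ.invariants)) ≃ G × Fin (finrank k ρ.invariants) :=
    (Equiv.sigmaEquivProd _ _).trans ((Equiv.inv G).prodCongr (Equiv.refl _)) with hσ
  refine ⟨(b0.reindex σ).map F.symm, fun g h i => ?_⟩
  have hb : ∀ (h : G) (i), ((b0.reindex σ).map F.symm) (h, i) = F.symm (Pi.single h⁻¹ (e i)) := by
    intro h i
    rw [Basis.map_apply, Basis.reindex_apply]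
    have : σ.symm (h, i) = ⟨h⁻¹, i⟩ := by
      simp [hσ, Equiv.sigmaEquivProd]
    rw [this, hb0, Pi.basis_apply]
  rw [hb, hb]
  apply F.injective
  rw [LinearEquiv.apply_symm_apply, hFa]
  ext a : 1
  rw [coindMap_rho, ← hFa, LinearEquiv.apply_symm_apply]
  by_cases hah : a * g = h⁻¹
  · have : a = (g * h)⁻¹ := by
      rw [mul_inv_rev, ← hah]; group
    rw [hah, this]
    simp
  · have : a ≠ (g * h)⁻¹ := by
      intro h'
      apply hah
      rw [h']; group
    rw [Pi.single_eq_of_ne hah, Pi.single_eq_of_ne this]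

/-! ### general facts on the norm -/

theorem norm_eq_zero_of_mem_aug [Fintype G] (ρ : Representation k G W) {x : W}
    (hx : x ∈ Coinvariants.ker ρ) : ρ.norm x = 0 := by
  have : Coinvariants.ker ρ ≤ LinearMap.ker ρ.norm := by
    rw [Coinvariants.ker, Submodule.span_le]
    rintro _ ⟨⟨g, w⟩, rfl⟩
    simp
  exact this hx

theorem norm_mem_invariants [Fintype G] (ρ : Representation k G W) (x : W) :
    ρ.norm x ∈ ρ.invariants := fun g => self_norm_apply ρ g x

/-! ### consequences of freeness -/

theorem IsFreeRep.finrank_eq [Finite G] {ρ : Representation k G W} {n : ℕ} (h : IsFreeRep ρ n) :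
    finrank k W = Nat.card G * n := by
  have := Fintype.ofFinite G
  obtain ⟨b, -⟩ := h
  rw [finrank_eq_card_basis b]
  simp [Nat.card_eq_fintype_card]

theorem IsFreeRep.finite [Finite G] {ρ : Representation k G W} {n : ℕ} (h : IsFreeRep ρ n) :
    Module.Finite k W := by
  obtain ⟨b, -⟩ := h
  exact Module.Finite.of_basis b

theorem repr_rho {ρ : Representation k G W} {n : ℕ} (b : Basis (G × Fin n) k W)
    (hb : ∀ (g h : G) (i : Fin n), ρ g (b (h, i)) = b (g * h, i)) (g : G) (x : W) :
    b.repr (ρ g x) = regRep k G (Fin n) g (b.repr x) := by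
  have : b.repr.toLinearMap ∘ₗ ρ g = regRep k G (Fin n) g ∘ₗ b.repr.toLinearMap := by
    apply b.ext
    rintro ⟨h, i⟩
    simp [hb, regRep_apply, Finsupp.mapDomain_single]
  exact LinearMap.congr_fun this x

theorem regRep_apply_apply {ι : Type*} (g h : G) (i : ι) (c : G × ι →₀ k) :
    regRep k G ι g c (g * h, i) = c (h, i) := by
  rw [regRep_apply]
  have hinj : Function.Injective (fun x : G × ι => (g * x.1, x.2)) := by
    rintro ⟨a, i⟩ ⟨b, j⟩ h
    simp only [Prod.mk.injEq, mul_right_inj] at h
    exact Prod.ext h.1 h.2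
  exact Finsupp.mapDomain_apply hinj c (h, i)

/-- (c) in a free module, `ker Nm = I_G W`. -/
theorem IsFreeRep.mem_aug_of_norm_eq_zero [Fintype G] {ρ : Representation k G W} {n : ℕ}
    (h : IsFreeRep ρ n) {x : W} (hx : ρ.norm x = 0) : x ∈ Coinvariants.ker ρ := by
  obtain ⟨b, hb⟩ := h
  have hb1 : ∀ (g : G) (i : Fin n), b (g, i) = ρ g (b (1, i)) := by
    intro g i; rw [hb, mul_one]
  set c := b.repr x with hc
  have hxc : x = ∑ i, ∑ g, c (g, i) • b (g, i) := by
    conv_lhs => rw [← b.sum_repr x, Fintype.sum_prod_type_right]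
  have hN : ρ.norm x = ∑ y : G × Fin n, (∑ g, c (g, y.2)) • b y := by
    rw [hxc, Fintype.sum_prod_type_right]
    simp only [map_sum, map_smul]
    apply Finset.sum_congr rfl
    intro i _
    have : ∀ g, ρ.norm (b (g, i)) = ∑ a, b (a, i) := by
      intro g
      rw [hb1, norm_self_apply]
      simp [Representation.norm, hb]
    simp only [this, Finset.sum_smul, Finset.smul_sum]
    exact Finset.sum_comm
  rw [hx] at hN
  have hs := Fintype.linearIndependent_iff.mp b.linearIndependent _ hN.symm
  have hs' : ∀ i, ∑ g, c (g, i) = 0 := fun i => hs (1, i)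
  have hx2 : x = ∑ i, ∑ g, c (g, i) • (ρ g (b (1, i)) - b (1, i)) := by
    rw [hxc]
    apply Finset.sum_congr rfl
    intro i _
    simp only [smul_sub, Finset.sum_sub_distrib, ← Finset.sum_smul, hs' i, zero_smul, sub_zero,
      ← hb1]
  rw [hx2]
  exact Submodule.sum_mem _ fun i _ => Submodule.sum_mem _ fun g _ =>
    Submodule.smul_mem _ _ (Coinvariants.sub_mem_ker g _)

/-- (c) in a free module, `W^G = Nm W`. -/
theorem IsFreeRep.exists_norm_eq [Fintype G] {ρ : Representation k G W} {n : ℕ}
    (h : IsFreeRep ρ n) {x : W} (hx : x ∈ ρ.invariants) : ∃ y, ρ.norm y = x := by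
  obtain ⟨b, hb⟩ := h
  set c := b.repr x with hc
  have hinv : ∀ (g : G) (i : Fin n), c (g, i) = c (1, i) := by
    intro g i
    have h1 := repr_rho b hb g x
    rw [hx g] at h1
    have h2 := regRep_apply_apply g 1 i c
    rw [← h1, mul_one] at h2
    exact h2
  refine ⟨∑ i, c (1, i) • b (1, i), ?_⟩
  conv_rhs => rw [← b.sum_repr x, Fintype.sum_prod_type_right]
  simp only [map_sum, map_smul]
  apply Finset.sum_congr rfl
  intro i _
  simp only [Representation.norm, LinearMap.sum_apply, hb, mul_one, Finset.smul_sum, ← hc, hinv]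

/-- (c) in a free module of rank `n`, `dim W_G = n`. -/
theorem IsFreeRep.finrank_coinvariants (p : ℕ) [hp : Fact p.Prime] [CharP k p] [Finite G]
    (hG : IsPGroup p G) {ρ : Representation k G W} {n : ℕ} (h : IsFreeRep ρ n) :
    finrank k (W ⧸ Coinvariants.ker ρ) = n := by
  have hfin := h.finite
  have hd := h.finrank_eq
  have h1 := finrank_le_card_mul_finrank_coinvariants p hG ρ
  rw [hd] at h1
  have h2 : n ≤ finrank k (W ⧸ Coinvariants.ker ρ) := Nat.le_of_mul_le_mul_left h1 Nat.card_pos
  apply le_antisymm _ h2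
  obtain ⟨b, hb⟩ := h
  have h3 := finrank_range_le_card (R := k) (fun i : Fin n => (Coinvariants.ker ρ).mkQ (b (1, i)))
  have h4 : Submodule.span k (Set.range fun i : Fin n => (Coinvariants.ker ρ).mkQ (b (1, i))) = ⊤ := by
    rw [eq_top_iff, ← Submodule.range_mkQ, ← Submodule.map_top, ← b.span_eq, Submodule.map_span,
      Submodule.span_le]
    rintro _ ⟨_, ⟨⟨g, i⟩, rfl⟩, rfl⟩
    apply Submodule.subset_span
    refine ⟨i, ?_⟩
    have : b (g, i) = ρ g (b (1, i)) := by rw [hb, mul_one]
    rw [this]
    symm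
    simp only [Submodule.mkQ_apply]
    rw [Submodule.Quotient.eq]
    exact Coinvariants.sub_mem_ker g _
  rw [Set.finrank, h4, finrank_top] at h3
  simpa using h3

/-- (c) in a free module of rank `n`, `dim W^G = n`. -/
theorem IsFreeRep.finrank_invariants (p : ℕ) [hp : Fact p.Prime] [CharP k p] [Finite G]
    (hG : IsPGroup p G) {ρ : Representation k G W} {n : ℕ} (h : IsFreeRep ρ n) :
    finrank k ρ.invariants = n := by
  have := Fintype.ofFinite G
  have hfin := h.finite
  have h1 : LinearMap.range ρ.norm = ρ.invariants := by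
    apply le_antisymm
    · rintro _ ⟨y, rfl⟩
      exact norm_mem_invariants ρ y
    · intro x hx
      exact h.exists_norm_eq hx
  have h2 : LinearMap.ker ρ.norm = Coinvariants.ker ρ := by
    apply le_antisymm
    · intro x hx
      exact h.mem_aug_of_norm_eq_zero hx
    · intro x hx
      exact norm_eq_zero_of_mem_aug ρ hx
  have h3 := LinearMap.finrank_range_add_finrank_ker ρ.norm
  have h4 := Submodule.finrank_quotient_add_finrank (Coinvariants.ker ρ)
  rw [h1, h2] at h3
  rw [h.finrank_coinvariants p hG] at h4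
  omega

/-- variant of `linearIndependent_orbFam`: it is enough that the norms `Nm (w i)` are independent. -/
theorem linearIndependent_orbFam_of_norm (p : ℕ) [hp : Fact p.Prime] [CharP k p] [Fintype G]
    (hG : IsPGroup p G) (ρ : Representation k G W) {ι : Type*} [Fintype ι] (w : ι → W)
    (hw : LinearIndependent k (fun i => ρ.norm (w i))) :
    LinearIndependent k (orbFam ρ w) := by
  rw [linearIndependent_iff_ker]
  by_contra hne
  obtain ⟨c, hc, hc0, hfix⟩ := exists_fixed_ne_zero p hG (regRep k G ι) _ (by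
    intro g c hc
    rw [LinearMap.mem_ker] at hc ⊢
    rw [linearCombination_regRep, hc, map_zero]) hne
  apply hc0
  have hinv : ∀ (g : G) (i : ι), c (g, i) = c (1, i) := by
    intro g i
    have h2 := regRep_apply_apply g 1 i c
    rw [hfix g, mul_one] at h2
    exact h2
  rw [LinearMap.mem_ker, Finsupp.linearCombination_apply, Finsupp.sum_fintype _ _ (by simp),
    Fintype.sum_prod_type] at hc
  have h3 : ∑ i, c (1, i) • ρ.norm (w i) = 0 := by
    rw [← hc]
    simp only [Representation.norm, LinearMap.sum_apply, orbFam, hinv, Finset.smul_sum]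
    exact Finset.sum_comm
  have h6 := Fintype.linearIndependent_iff.mp hw _ h3
  ext ⟨g, i⟩
  rw [hinv, h6]
  rfl

/-- (b'') if `Nm : W → W^G` is surjective then `W` is free over `k[G]` of rank `dim W^G`. -/
theorem isFreeRep_of_norm_surjective (p : ℕ) [hp : Fact p.Prime] [CharP k p] [Fintype G]
    (hG : IsPGroup p G) [Module.Finite k W] (ρ : Representation k G W)
    (hnm : ∀ x ∈ ρ.invariants, ∃ y, ρ.norm y = x) :
    IsFreeRep ρ (finrank k ρ.invariants) := by
  set e := finBasis k ρ.invariants with he
  choose w hw using fun i => hnm (e i) (e i).2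
  have hli : LinearIndependent k (fun i => ρ.norm (w i)) := by
    have h1 : (fun i => ρ.norm (w i)) = ρ.invariants.subtype ∘ e := funext hw
    rw [h1]
    exact e.linearIndependent.map' _ (Submodule.ker_subtype _)
  have h1 := linearIndependent_orbFam_of_norm p hG ρ w hli
  apply isFreeRep_of_finrank_eq_invariants p hG ρ
  apply le_antisymm (finrank_le_card_mul_finrank_invariants p hG ρ)
  have h2 := h1.fintype_card_le_finrank
  simpa [Nat.card_eq_fintype_card] using h2

/-- Freeness is equivalent to `dim W = |G| · dim W^G`. -/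
theorem isFreeRep_iff_finrank_invariants (p : ℕ) [hp : Fact p.Prime] [CharP k p] [Finite G]
    (hG : IsPGroup p G) [Module.Finite k W] (ρ : Representation k G W) :
    (∃ n, IsFreeRep ρ n) ↔ finrank k W = Nat.card G * finrank k ρ.invariants := by
  constructor
  · rintro ⟨n, h⟩
    rw [h.finrank_invariants p hG, h.finrank_eq]
  · intro h
    exact ⟨_, isFreeRep_of_finrank_eq_invariants p hG ρ h⟩

end Fermat.Agent.S43.Free.Alg3
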