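import Fermat.Agent.S43.Free.CoverDefs

/-! # S43 / Free / Cov1 : formal properties of `π^*`, `π_*`, `Gal(F'/F)` on the Kummer models -/

set_option autoImplicit false
set_option linter.unusedSectionVars false

noncomputable section

namespace Fermat.Agent.S43.Free

open AlgebraicCurve Fermat.Agent.GAL Fermat.Agent.GAL.Hecke Fermat.Agent.S41.Dual

variable {K F F' : Type*} [Field K] [IsAlgClosed K] [CharZero K] [Field F] [Field F']
  [Algebra K F] [Algebra K F'] [Algebra F F'] [IsScalarTower K F F'] [FiniteDimensional F F']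
  [IsGalois F F']

/-- `π^* π_* = Nm_G`.  RECIPE: `KV.mk_surjective`, `push_mk`, `pull_mk`, `Algebra.norm_eq_prod_automorphisms`; the sum of `KV.mk`'s is the `KV.mk` of the
product (`map_sum`/`Finset.induction_on` with `KV.mk_mul`; or show by induction on a finset `s` of automorphisms that
`∑ g ∈ s, galKV g (mk u) = mk ⟨∏ g ∈ s, Units.map g u, _⟩`). -/
theorem pull_push [Fintype (F' ≃ₐ[F] F')] (m : ℕ) (x : KV K F' m) :
    pull K F F' m (push K F F' m x) = ∑ g : F' ≃ₐ[F] F', galKV K F F' m g x := by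
  sorry

/-- RECIPE: `KV.mk_surjective`, `galKV_mk`, `pull_mk`, `AlgEquiv.commutes`. -/
theorem galKV_pull (m : ℕ) (g : F' ≃ₐ[F] F') (x : KV K F m) :
    galKV K F F' m g (pull K F F' m x) = pull K F F' m x := by
  sorry

/-- `π_*` commutes with a pair of compatible multiplicative operators commuting with the Galois group.
RECIPE: on units: `algebraMap (norm (N' u)) = ∏ g, g (N' u) = ∏ g, N' (g u) = N' (∏ g, g u) = N' (algebraMap (norm u)) = algebraMap (N (norm u))`,
`Algebra.norm_eq_prod_automorphisms`, injectivity of `algebraMap F F'`. -/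
theorem push_map (m : ℕ) (N : F →* F) (N' : F' →* F')
    (compat : ∀ x : F, N' (algebraMap F F' x) = algebraMap F F' (N x))
    (comm : ∀ (g : F' ≃ₐ[F] F') (x : F'), N' (g x) = g (N' x))
    (mem : ∀ u ∈ kummerUnits K F m, Units.map N u ∈ kummerUnits K F m)
    (mem' : ∀ u ∈ kummerUnits K F' m, Units.map N' u ∈ kummerUnits K F' m) (x : KV K F' m) :
    push K F F' m (KV.map (Units.map N') mem' x) = KV.map (Units.map N) mem (push K F F' m x) := by
  sorry

/-- RECIPE: on units, `compat`. -/
theorem pull_map (m : ℕ) (N : F →* F) (N' : F' →* F')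
    (compat : ∀ x : F, N' (algebraMap F F' x) = algebraMap F F' (N x))
    (mem : ∀ u ∈ kummerUnits K F m, Units.map N u ∈ kummerUnits K F m)
    (mem' : ∀ u ∈ kummerUnits K F' m, Units.map N' u ∈ kummerUnits K F' m) (x : KV K F m) :
    pull K F F' m (KV.map (Units.map N) mem x) = KV.map (Units.map N') mem' (pull K F F' m x) := by
  sorry

/-- RECIPE: on units, `comm`. -/
theorem galKV_map (m : ℕ) (N' : F' →* F')
    (comm : ∀ (g : F' ≃ₐ[F] F') (x : F'), N' (g x) = g (N' x))
    (mem' : ∀ u ∈ kummerUnits K F' m, Units.map N' u ∈ kummerUnits K F' m) (g : F' ≃ₐ[F] F') (x : KV K F' m) :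
    galKV K F F' m g (KV.map (Units.map N') mem' x) = KV.map (Units.map N') mem' (galKV K F F' m g x) := by
  sorry

/-- **ADJUNCTION.**  RECIPE: `KV.mk_surjective`, `S41.Dual.kvPair_adj`, `kvPair_swap`. -/
theorem kvPair_pull_push [Lib.RR.IsFF K F] [Lib.RR.IsFF K F'] (m : ℕ) (hm : m ≠ 0) (x' : KV K F' m) (y : KV K F m) :
    kvPair m hm x' (pull K F F' m y) = kvPair m hm (push K F F' m x') y := by
  sorry

end Fermat.Agent.S43.Free
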