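import Fermat.Agent.S43.Free.CoverDefs

/-! # S43 / Free / Cov2 : the kernel of `π^*` is Eisenstein -/

set_option autoImplicit false
set_option linter.unusedSectionVars false

noncomputable section

namespace Fermat.Agent.S43.Free

open AlgebraicCurve Fermat.Agent.GAL Fermat.Agent.GAL.Hecke Fermat.Agent.S41.Dual

variable {K F F' : Type*} [Field K] [IsAlgClosed K] [CharZero K] [Field F] [Field F']
  [Algebra K F] [Algebra K F'] [Algebra F F'] [IsScalarTower K F F'] [FiniteDimensional F F']
  [IsGalois F F']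

/-- an `m`-th root of unity of `F'` is a constant.  RECIPE: `K` algebraically closed of char. 0 has a primitive `m`-th root of unity `ζ`
(`HasEnoughRootsOfUnity.exists_primitiveRoot` or `IsAlgClosed.exists...`); its image in `F'` is primitive (`IsPrimitiveRoot.map_of_injective`), and
`IsPrimitiveRoot.eq_pow_of_pow_eq_one` gives `z = (algebraMap ζ)^i`. -/
theorem exists_const_of_pow_eq_one {m : ℕ} (hm : m ≠ 0) {z : F'} (hz : z ^ m = 1) :
    ∃ c : K, c ^ m = 1 ∧ algebraMap K F' c = z := by
  sorry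

/-- an element fixed by the Galois group comes from `F`.  RECIPE: `IsGalois.mem_bot_iff_fixed` / `IsGalois.fixedField_top`,
`IntermediateField.mem_bot`. -/
theorem exists_of_fixed {w : F'} (hw : ∀ g : F' ≃ₐ[F] F', g w = w) : ∃ w₀ : F, algebraMap F F' w₀ = w := by
  sorry

/-- **(a)** `π^* x = 0 → T x = n x`.
RECIPE: `x = mk u`; `KV.mk_eq_zero_iff`: `y ^ m = algebraMap u`, `y : F'ˣ`.  For `g`: `(g y / y)^m = 1`, so `g y = c_g y`, `c_g ∈ K`
(`exists_const_of_pow_eq_one`).  `w := N' y / y ^ n` is fixed by all `g` (`comm`, `map_mul`, `const`; `g` fixes constants: `AlgEquiv.commutes` +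
`IsScalarTower.algebraMap_apply K F F'`), so `w = algebraMap w₀` (`exists_of_fixed`), and
`algebraMap (w₀ ^ m) = N' (y^m) / (y^m)^n = algebraMap (N u / u ^ n)`, so `N u = w₀ ^ m * u ^ n`; conclude with `KV.map_mk`, `KV.mk_eq_mk_iff`, `KV.mk_pow`. -/
theorem ker_pull (m : ℕ) (hm : m ≠ 0) (n : ℕ) (N : F →* F) (N' : F' →* F')
    (compat : ∀ x : F, N' (algebraMap F F' x) = algebraMap F F' (N x))
    (comm : ∀ (g : F' ≃ₐ[F] F') (x : F'), N' (g x) = g (N' x))
    (const : ∀ c : K, N' (algebraMap K F' c) = algebraMap K F' (c ^ n))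
    (mem : ∀ u ∈ kummerUnits K F m, Units.map N u ∈ kummerUnits K F m)
    (x : KV K F m) (hx : pull K F F' m x = 0) :
    KV.map (Units.map N) mem x = n • x := by
  sorry

end Fermat.Agent.S43.Free
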