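import Fermat.Agent.S43.Free.Cov2

/-! # S43 / Free / Cov3 : the cokernel of `π^* : V(F) → V(F')^G` is Eisenstein (Hilbert 90) -/

set_option autoImplicit false
set_option linter.unusedSectionVars false

noncomputable section

namespace Fermat.Agent.S43.Free

open AlgebraicCurve Fermat.Agent.GAL Fermat.Agent.GAL.Hecke Fermat.Agent.S41.Dual

variable {K F F' : Type*} [Field K] [IsAlgClosed K] [CharZero K] [Field F] [Field F']
  [Algebra K F] [Algebra K F'] [Algebra F F'] [IsScalarTower K F F'] [FiniteDimensional F F']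
  [IsGalois F F']

/-- **(b)** if `x'` is `G`-invariant then `(T' - n) x'` comes from `F`.
RECIPE: `x' = mk u'`.  For every `g` choose (`KV.mk_eq_mk_iff`, `galKV_mk`, `Classical.choose`) `y g : F'ˣ` with `y g ^ m * u' = g u'`.
`c g := N' (y g) / (y g) ^ n : F'ˣ`.  COCYCLE: `(y (g * h))^m = (g (y h) * y g)^m` (both are `(g h u') / u'`), so `y (g*h) = ζ * g (y h) * y g` with `ζ` a constant
(`exists_const_of_pow_eq_one`), and `N' ζ / ζ ^ n = 1` (`const`), so `c (g * h) = g • c h * c g` (`comm`).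
HILBERT 90: `groupCohomology.isMulCoboundary₁_of_isMulCocycle₁_of_aut_to_units c hc` gives `β : F'ˣ` with `g • β / β = c g`.
`v' := N' u' / u' ^ n`: `g v' / v' = (c g)^m = (g β / β)^m`, so `v' / β ^ m` is fixed, `= algebraMap v₀` (`exists_of_fixed`), `v₀ ≠ 0`;
`algebraMap v₀ = v' * (β⁻¹)^m` is a Kummer unit of `F'` (`mem'`, `pow_mem_kummerUnits`, subgroup), so `v₀` is a Kummer unit of `F` (`hunr`).
`pull (mk v₀) = mk v' = T' x' - n x'` (`KV.mk_eq_mk_iff`). -/
theorem coker_pull (m : ℕ) (hm : m ≠ 0) (n : ℕ) (N' : F' →* F')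
    (comm : ∀ (g : F' ≃ₐ[F] F') (x : F'), N' (g x) = g (N' x))
    (const : ∀ c : K, N' (algebraMap K F' c) = algebraMap K F' (c ^ n))
    (mem' : ∀ u ∈ kummerUnits K F' m, Units.map N' u ∈ kummerUnits K F' m)
    (hunr : ∀ u : Fˣ, Units.map (algebraMap F F' : F →* F') u ∈ kummerUnits K F' m → u ∈ kummerUnits K F m)
    (x' : KV K F' m) (hx' : ∀ g : F' ≃ₐ[F] F', galKV K F F' m g x' = x') :
    ∃ x : KV K F m, pull K F F' m x = KV.map (Units.map N') mem' x' - n • x' := by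
  classical
  obtain ⟨u', rfl⟩ := KV.mk_surjective x'
  have hy : ∀ g : F' ≃ₐ[F] F', ∃ y : F'ˣ,
      y ^ m * (u' : F'ˣ) = Units.map ((g : F' ≃* F') : F' →* F') (u' : F'ˣ) := by
    intro g
    have h := hx' g
    rw [galKV_mk, KV.mk_eq_mk_iff] at h
    exact h
  choose y hy using hy
  set U : F' := ((u' : F'ˣ) : F') with hU
  have hU0 : U ≠ 0 := Units.ne_zero _
  have hyF : ∀ g : F' ≃ₐ[F] F', ((y g : F'ˣ) : F') ^ m * U = g U := by
    intro g
    have h := congrArg (fun t : F'ˣ => (t : F')) (hy g)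
    simp only [Units.val_mul, Units.val_pow_eq_pow_val, Units.coe_map] at h
    exact h
  have hy0 : ∀ g : F' ≃ₐ[F] F', ((y g : F'ˣ) : F') ≠ 0 := fun g => Units.ne_zero _
  have hypow : ∀ g : F' ≃ₐ[F] F', ((y g : F'ˣ) : F') ^ m = g U / U := by
    intro g
    rw [← hyF g, mul_div_assoc, div_self hU0, mul_one]
  have hgU0 : ∀ g : F' ≃ₐ[F] F', g U ≠ 0 := fun g => (map_ne_zero g).2 hU0
  have hN0 : ∀ z : F', z ≠ 0 → N' z ≠ 0 := by
    intro z hz
    exact (Units.map N' (Units.mk0 z hz)).ne_zero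
  have hNinv : ∀ a b : F', b ≠ 0 → N' (a / b) = N' a / N' b := by
    intro a b hb
    rw [eq_div_iff (hN0 b hb), ← map_mul, div_mul_cancel₀ _ hb]
  let c : (F' ≃ₐ[F] F') → F'ˣ := fun g => Units.map N' (y g) / (y g) ^ n
  have hcF : ∀ g : F' ≃ₐ[F] F', ((c g : F'ˣ) : F') = N' (y g : F') / (y g : F') ^ n := by
    intro g
    show ((Units.map N' (y g) / (y g) ^ n : F'ˣ) : F') = _
    rw [Units.val_div_eq_div_val, Units.coe_map, Units.val_pow_eq_pow_val]
  have hc : groupCohomology.IsMulCocycle₁ c := by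
    intro g h
    have h1 : ((y (g * h) : F') / (g (y h : F') * (y g : F'))) ^ m = 1 := by
      rw [div_pow, mul_pow, ← map_pow, hypow, hypow, hypow, map_div₀]
      have e : (g * h) U = g (h U) := rfl
      rw [e]
      have h3 := hgU0 g
      have h4 : g (h U) ≠ 0 := (map_ne_zero g).2 (hgU0 h)
      field_simp
    obtain ⟨ζ, -, hζe⟩ := exists_const_of_pow_eq_one (K := K) hm h1
    have hgy0 : g (y h : F') ≠ 0 := (map_ne_zero g).2 (hy0 h)
    have h2 : (y (g * h) : F') = algebraMap K F' ζ * (g (y h : F') * (y g : F')) := by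
      rw [hζe, div_mul_cancel₀ _ (mul_ne_zero hgy0 (hy0 g))]
    apply Units.ext
    rw [Units.val_mul, hcF, hcF, AlgEquiv.smul_units_def, Units.coe_map]
    show _ = g ((c h : F'ˣ) : F') * _
    rw [hcF, h2, map_mul, map_mul, const, comm, map_div₀, map_pow, mul_pow, mul_pow, map_pow]
    have h5 : algebraMap K F' ζ ≠ 0 := by
      intro h0
      rw [h0, zero_mul] at h2
      exact hy0 _ h2
    have h6 := hy0 g
    field_simp
  obtain ⟨β, hβ⟩ := groupCohomology.isMulCoboundary₁_of_isMulCocycle₁_of_aut_to_units c hc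
  have hβ0 : (β : F') ≠ 0 := Units.ne_zero _
  have hβF : ∀ g : F' ≃ₐ[F] F', g (β : F') = ((c g : F'ˣ) : F') * (β : F') := by
    intro g
    have h := congrArg (fun t : F'ˣ => (t : F')) (hβ g)
    simp only [Units.val_div_eq_div_val, AlgEquiv.smul_units_def, Units.coe_map] at h
    have h' : g (β : F') / (β : F') = ((c g : F'ˣ) : F') := h
    rw [← h', div_mul_cancel₀ _ hβ0]
  -- the fixed element
  have hfix : ∀ g : F' ≃ₐ[F] F', g (N' U / U ^ n / (β : F') ^ m) = N' U / U ^ n / (β : F') ^ m := by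
    intro g
    rw [map_div₀, map_div₀, map_pow, map_pow, ← comm, hβF, hcF, ← hyF g, map_mul, map_pow]
    have h6 := hy0 g
    have h7 := hN0 _ h6
    rw [mul_pow, mul_pow, div_pow, ← pow_mul, ← pow_mul, mul_comm n m]
    field_simp
  obtain ⟨v₀, hv₀⟩ := exists_of_fixed hfix
  have hw0 : N' U / U ^ n / (β : F') ^ m ≠ 0 :=
    div_ne_zero (div_ne_zero (hN0 U hU0) (pow_ne_zero _ hU0)) (pow_ne_zero _ hβ0)
  have hv₀0 : v₀ ≠ 0 := by
    rintro rfl
    rw [map_zero] at hv₀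
    exact hw0 hv₀.symm
  have hV : Units.map (algebraMap F F' : F →* F') (Units.mk0 v₀ hv₀0) =
      (β⁻¹) ^ m * (Units.map N' (u' : F'ˣ) * ((u' : F'ˣ) ^ n)⁻¹) := by
    apply Units.ext
    rw [Units.coe_map, Units.val_mul, Units.val_mul, Units.val_pow_eq_pow_val,
      Units.val_inv_eq_inv_val, Units.val_inv_eq_inv_val, Units.val_pow_eq_pow_val, Units.coe_map]
    show algebraMap F F' v₀ = _
    rw [hv₀]
    show N' U / U ^ n / (β : F') ^ m = ((β : F')⁻¹) ^ m * (N' U * (U ^ n)⁻¹)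
    rw [inv_pow]
    field_simp
  have hmemV : Units.map (algebraMap F F' : F →* F') (Units.mk0 v₀ hv₀0) ∈ kummerUnits K F' m := by
    rw [hV]
    exact mul_mem (pow_mem_kummerUnits m _)
      (mul_mem (mem' _ u'.2) (inv_mem (pow_mem u'.2 n)))
  refine ⟨KV.mk ⟨Units.mk0 v₀ hv₀0, hunr _ hmemV⟩, ?_⟩
  rw [pull_mk, KV.map_mk, ← KV.mk_pow, sub_eq_add_neg, ← KV.mk_inv, ← KV.mk_mul, KV.mk_eq_mk_iff]
  exact ⟨β⁻¹, hV.symm⟩

end Fermat.Agent.S43.Free
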