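import Fermat.Agent.S41.Dual.Pair
import Fermat.Agent.GAL.Hecke.KummerNorm

/-!
# S43 / Free / CoverDefs : a finite Galois cover `F'/F` of function fields over `K` and the Kummer models

* `pull m = π^* : KV K F m → KV K F' m`, `push m = π_*` (norm), `galKV m g` the action of `g ∈ Gal(F'/F)`.
-/

set_option autoImplicit false
set_option linter.unusedSectionVars false

noncomputable section

namespace Fermat.Agent.S43.Free

open AlgebraicCurve Fermat.Agent.GAL Fermat.Agent.GAL.Hecke Fermat.Agent.S41.Dual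

variable (K F F' : Type*) [Field K] [Field F] [Field F']
  [Algebra K F] [Algebra K F'] [Algebra F F'] [IsScalarTower K F F'] [FiniteDimensional F F']

theorem pull_mem {m : ℕ} (u : Fˣ) (hu : u ∈ kummerUnits K F m) :
    Units.map (algebraMap F F' : F →* F') u ∈ kummerUnits K F' m :=
  map_mem_kummerUnits (IsScalarTower.toAlgHom K F F')
    (fun x => (Algebra.IsIntegral.isIntegral (R := F) x)) hu

/-- `π^*`. -/
def pull (m : ℕ) : KV K F m →+ KV K F' m :=
  KV.map (Units.map (algebraMap F F' : F →* F')) (pull_mem K F F')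

/-- `π_*`. -/
def push [Algebra.IsSeparable F F'] (m : ℕ) : KV K F' m →+ KV K F m :=
  KV.map (Units.map (Algebra.norm F : F' →* F)) (fun _ hu => norm_mem_kummerUnits hu)

theorem gal_mem {m : ℕ} (g : F' ≃ₐ[F] F') (u : F'ˣ) (hu : u ∈ kummerUnits K F' m) :
    Units.map ((g : F' ≃* F') : F' →* F') u ∈ kummerUnits K F' m :=
  map_mem_kummerUnits ((g.restrictScalars K : F' ≃ₐ[K] F') : F' →ₐ[K] F')
    (RingHom.IsIntegral.of_finite (RingHom.Finite.of_surjective _ g.surjective)) hu

/-- the action of `Gal(F'/F)`. -/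
def galKV (m : ℕ) (g : F' ≃ₐ[F] F') : KV K F' m →+ KV K F' m :=
  KV.map (Units.map ((g : F' ≃* F') : F' →* F')) (gal_mem K F F' g)

variable {K F F'}

theorem pull_mk {m : ℕ} (u : kummerUnits K F m) :
    pull K F F' m (KV.mk u) = KV.mk ⟨Units.map (algebraMap F F' : F →* F') u, pull_mem K F F' u u.2⟩ := rfl

theorem push_mk [Algebra.IsSeparable F F'] {m : ℕ} (u : kummerUnits K F' m) :
    push K F F' m (KV.mk u) =
      KV.mk ⟨Units.map (Algebra.norm F : F' →* F) u, norm_mem_kummerUnits u.2⟩ := rfl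

theorem galKV_mk {m : ℕ} (g : F' ≃ₐ[F] F') (u : kummerUnits K F' m) :
    galKV K F F' m g (KV.mk u) =
      KV.mk ⟨Units.map ((g : F' ≃* F') : F' →* F') u, gal_mem K F F' g u u.2⟩ := rfl

end Fermat.Agent.S43.Free
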