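import Fermat.Agent.S41.Dual.Abs

/-! # S43 / Free / GK2 : invariants of the generalised eigenspace -/

set_option autoImplicit false

namespace Fermat.Agent.S43.Free

open Fermat.Agent.S41.Dual

variable {ι A B G : Type*} [AddCommGroup A] [AddCommGroup B]

/-- an additive endomorphism of a finite group which is injective on a stable subgroup is onto on it. -/
theorem exists_preimage_of_injOn [Finite B] (E : B →+ B) (Z : AddSubgroup B) (hst : ∀ z ∈ Z, E z ∈ Z)
    (hinj : ∀ z ∈ Z, E z = 0 → z = 0) {x : B} (hx : x ∈ Z) : ∃ z ∈ Z, E z = x := by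
  sorry

/-- **ALG2.** `(genKer UB)^G = π^* (genKer UA)`.
RECIPE: `Z = {y ∈ genKer UB | ∀ g, gB g y = y}` is stable under `EB` (`hEU`, `hEg`, `map_mem_genKer`-like: if `(UB i)^[k] y = 0` then
`(UB i)^[k] (EB y) = EB ((UB i)^[k] y) = 0`), `EB` is injective on it: write `y = EB (EB y₂)`, `y₂ ∈ Z` (`exists_preimage_of_injOn` twice); `a z = EB y₂` (`hcoker`);
`x := EA z`: `a x = EB (a z) = y`; `x ∈ genKer UA`: if `(UB i)^[k] (EB y₂) = 0` then `a ((UA i)^[k] z) = 0`, so `EA ((UA i)^[k] z) = 0` (`hker`), and `EA` commutes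
with `UA i`. -/
theorem inv_genKer [Finite B] (UA : ι → A →+ A) (UB : ι → B →+ B)
    (a : A →+ B) (ha : ∀ i x, a (UA i x) = UB i (a x))
    (gB : G → B →+ B) (hgU : ∀ g i x, gB g (UB i x) = UB i (gB g x))
    (EA : A →+ A) (EB : B →+ B) (hEA : ∀ i x, EA (UA i x) = UA i (EA x))
    (hEU : ∀ i x, EB (UB i x) = UB i (EB x)) (hEg : ∀ g x, EB (gB g x) = gB g (EB x))
    (haE : ∀ x, a (EA x) = EB (a x))
    (hEinj : ∀ y ∈ genKer UB, EB y = 0 → y = 0)
    (hker : ∀ x, a x = 0 → EA x = 0)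
    (hcoker : ∀ y, (∀ g, gB g y = y) → ∃ x, a x = EB y)
    {y : B} (hy : y ∈ genKer UB) (hinv : ∀ g, gB g y = y) : ∃ x ∈ genKer UA, a x = y := by
  sorry

end Fermat.Agent.S43.Free
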