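import Fermat.Agent.S41.Dual.Abs

/-! # S43 / Free / GK3 : the Eisenstein operator is injective on a non Eisenstein generalised eigenspace -/

set_option autoImplicit false

namespace Fermat.Agent.S43.Free

open Fermat.Agent.S41.Dual

variable {ι A B G : Type*} [AddCommGroup A] [AddCommGroup B]

/-- `T - n` is injective on the generalised eigenspace of `T - c` if `c - n` is prime to the exponent `p`.
RECIPE: `x ∈ genKer U`, `(U i₀)^[k] x = 0`, `E x = 0` i.e. `U i₀ x = -(d • x)`; by induction `(U i₀)^[k] x = (-d)^k • x`; `(-d)^k` is prime to `p`, `p • x = 0`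
(`Int.isCoprime_iff_gcd_eq_one`, Bezout `u * (-d)^k + v * p = 1`). -/
theorem injOn_genKer_of_coprime (U : ι → B →+ B) (i₀ : ι) (E : B →+ B) (p : ℕ) (d : ℤ) (hd : IsCoprime d (p : ℤ))
    (hp : ∀ x : B, p • x = 0) (hE : ∀ x, E x = U i₀ x + d • x) :
    ∀ x ∈ genKer U, E x = 0 → x = 0 := by
  intro x hx hEx
  obtain ⟨k, hk⟩ := hx i₀
  have hU : U i₀ x = (-d) • x := by
    have := hE x
    rw [hEx] at this
    rw [neg_smul]
    exact eq_neg_of_add_eq_zero_left this.symm
  have hit : ∀ n : ℕ, (U i₀)^[n] x = ((-d) ^ n) • x := by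
    intro n
    induction n with
    | zero => simp
    | succ n ih =>
      rw [Function.iterate_succ_apply', ih, map_zsmul, hU, smul_smul, pow_succ]
  have hc : IsCoprime ((-d) ^ k) (p : ℤ) := (hd.neg_left).pow_left
  obtain ⟨u, v, huv⟩ := hc
  have h1 : ((-d) ^ k) • x = 0 := by rw [← hit, hk]
  have h2 : ((p : ℤ)) • x = 0 := by
    rw [natCast_zsmul]; exact hp x
  calc x = (1 : ℤ) • x := (one_smul _ _).symm
    _ = (u * (-d) ^ k + v * (p : ℤ)) • x := by rw [huv]
    _ = 0 := by rw [add_smul, mul_smul, mul_smul, h1, h2, smul_zero, smul_zero, add_zero]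

end Fermat.Agent.S43.Free
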