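import Fermat.Agent.S43.Free.GK1
import Fermat.Agent.S43.Free.GK2
import Fermat.Agent.S43.Free.GK3

/-!
# S43 / Free / GK : the abstract algebra of block FREE (route TWX)

`A = V(Γ₀(M))`, `B = V(Γ₁(M))` finite abelian groups, `a = π^* : A → B`, `b = π_* : B → A`, `G` the group of the cover,
`UA i = T_ℓ - a_ℓ`, `UB i` the same upstairs, `EA = T_{ℓ₀} - (ℓ₀ + 1)`, `EB` the same upstairs.

* `surj_genKer`  : `π_* : genKer UB → genKer UA` is onto;
* `inv_genKer`   : `(genKer UB)^G = π^* (genKer UA)`;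
* `norm_genKer`  : `(genKer UB)^G = Nm_G (genKer UB)`  (Tate `H^0 = 0`).
-/

set_option autoImplicit false

namespace Fermat.Agent.S43.Free

open Fermat.Agent.S41.Dual

variable {ι A B G : Type*} [AddCommGroup A] [AddCommGroup B]

/-- **ALG3.** `π^*` is injective on `genKer UA`. -/
theorem inj_genKer (UA : ι → A →+ A) (a : A →+ B) (EA : A →+ A)
    (hEinj : ∀ x ∈ genKer UA, EA x = 0 → x = 0) (hker : ∀ x, a x = 0 → EA x = 0)
    {x : A} (hx : x ∈ genKer UA) (h : a x = 0) : x = 0 :=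
  hEinj x hx (hker x h)

/-- **ALG4 (Tate `H^0 = 0`).** -/
theorem norm_genKer {K : Type*} [Field K] [IsAlgClosed K] [CharZero K] [Finite A] [Finite B] [Fintype G]
    (UA : ι → A →+ A) (UB : ι → B →+ B)
    (hUA : ∀ i j x, UA i (UA j x) = UA j (UA i x)) (hUB : ∀ i j x, UB i (UB j x) = UB j (UB i x))
    (a : A →+ B) (b : B →+ A) (ha : ∀ i x, a (UA i x) = UB i (a x)) (hb : ∀ i x, b (UB i x) = UA i (b x))
    (gB : G → B →+ B) (hgU : ∀ g i x, gB g (UB i x) = UB i (gB g x))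
    (hab : ∀ y, a (b y) = ∑ g, gB g y)
    (EA : A →+ A) (EB : B →+ B) (hEA : ∀ i x, EA (UA i x) = UA i (EA x))
    (hEU : ∀ i x, EB (UB i x) = UB i (EB x)) (hEg : ∀ g x, EB (gB g x) = gB g (EB x))
    (haE : ∀ x, a (EA x) = EB (a x))
    (hEAinj : ∀ x ∈ genKer UA, EA x = 0 → x = 0)
    (hEBinj : ∀ y ∈ genKer UB, EB y = 0 → y = 0)
    (hker : ∀ x, a x = 0 → EA x = 0)
    (hcoker : ∀ y, (∀ g, gB g y = y) → ∃ x, a x = EB y)
    (eA : A → A → Kˣ) (eA_add_left : ∀ x y z, eA (x + y) z = eA x z * eA y z)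
    (eA_add_right : ∀ x y z, eA x (y + z) = eA x y * eA x z)
    (eA_adj : ∀ i x y, eA (UA i x) y = eA x (UA i y))
    (eB : B → B → Kˣ) (eB_nd : ∀ y, (∀ x, eB x y = 1) → y = 0)
    (adj : ∀ x y, eB x (a y) = eA (b x) y)
    {y : B} (hy : y ∈ genKer UB) (hinv : ∀ g, gB g y = y) :
    ∃ w ∈ genKer UB, y = ∑ g, gB g w := by
  obtain ⟨x, hx, rfl⟩ := inv_genKer UA UB a ha gB hgU EA EB hEA hEU hEg haE hEBinj hker hcoker hy hinv
  obtain ⟨w, hw, rfl⟩ := surj_genKer UA UB hUA hUB a b hb eA eA_add_left eA_add_right eA_adj eB eB_nd adj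
    (fun y hy h => inj_genKer UA a EA hEAinj hker hy h) hx
  exact ⟨w, hw, hab w⟩

end Fermat.Agent.S43.Free
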