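import Fermat.Agent.S41.Dual.Abs

/-! # S43 / Free / GK0 : annihilators in a finite group with a pairing -/

set_option autoImplicit false

namespace Fermat.Agent.S43.Free

open Fermat.Agent.S41.Dual

variable {ι A B G : Type*} [AddCommGroup A] [AddCommGroup B]

/-- **ALG0.** a proper subgroup of a finite group with a nondegenerate pairing into the units of an algebraically closed field of
characteristic zero has a non trivial annihilator.
RECIPE: `Φ : A₀ → (Multiplicative I →* Kˣ)`, `y ↦ (i ↦ e i y)`; if the conclusion fails `Φ` is injective (it is additive -> multiplicative), so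
`#A₀ ≤ #(Multiplicative I →* Kˣ) = #I` (`card_monoidHom_of_hasEnoughRootsOfUnity`, Mathlib `Mathlib/GroupTheory/FiniteAbelian/Duality.lean`; the instance
`HasEnoughRootsOfUnity K n` for `K` algebraically closed, `NeZero (n : K)`), so `I = A₀` (`AddSubgroup.eq_of_le_of_card_ge`). -/
theorem exists_annihilator {K : Type*} [Field K] [IsAlgClosed K] [CharZero K] [Finite A]
    (e : A → A → Kˣ) (e_add_left : ∀ x y z, e (x + y) z = e x z * e y z)
    (e_add_right : ∀ x y z, e x (y + z) = e x y * e x z)
    (A₀ I : AddSubgroup A) (hI : I ≤ A₀) (hne : I ≠ A₀) :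
    ∃ y ∈ A₀, y ≠ 0 ∧ ∀ i ∈ I, e i y = 1 := by
  by_contra hcon
  push Not at hcon
  apply hne
  have h0 : ∀ y, e 0 y = 1 := by
    intro y
    have h := e_add_left 0 0 y
    rw [add_zero] at h
    exact (mul_eq_left.1 h.symm)
  let Φ : A₀ → (Multiplicative I →* Kˣ) := fun y =>
    { toFun := fun i => e ((Multiplicative.toAdd i : I) : A) (y : A)
      map_one' := h0 _
      map_mul' := fun i j => e_add_left _ _ _ }
  have hΦ : Function.Injective Φ := by
    intro y y' hyy
    by_contra hne'
    have hsub : ((y : A) - (y' : A)) ≠ 0 := fun h => hne' (Subtype.ext (sub_eq_zero.1 h))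
    obtain ⟨i, hi, hie⟩ := hcon _ (A₀.sub_mem y.2 y'.2) hsub
    apply hie
    have h1 : e i (y : A) = e i (y' : A) :=
      DFunLike.congr_fun hyy (Multiplicative.ofAdd (⟨i, hi⟩ : I))
    have h2 := e_add_right i ((y : A) - (y' : A)) (y' : A)
    rw [sub_add_cancel, h1] at h2
    exact (mul_eq_right.1 h2.symm)
  have hexp : NeZero ((Monoid.exponent (Multiplicative I) : ℕ) : K) :=
    ⟨Nat.cast_ne_zero.2 Monoid.exponent_ne_zero_of_finite⟩
  have hcard : Nat.card (Multiplicative I →* Kˣ) = Nat.card (Multiplicative I) :=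
    CommGroup.card_monoidHom_of_hasEnoughRootsOfUnity (Multiplicative I) K
  have hfin : Finite (Multiplicative I →* Kˣ) := by
    apply Nat.finite_of_card_ne_zero
    rw [hcard]
    exact Nat.card_pos.ne'
  have hle : Nat.card A₀ ≤ Nat.card I := by
    have := Nat.card_le_card_of_injective Φ hΦ
    rw [hcard] at this
    exact this
  exact AddSubgroup.eq_of_le_of_card_ge hI hle

end Fermat.Agent.S43.Free
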