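import Fermat.Agent.S43.Free.GK0

/-! # S43 / Free / GK1 : the push-forward is onto on generalised eigenspaces -/

set_option autoImplicit false

namespace Fermat.Agent.S43.Free

open Fermat.Agent.S41.Dual

variable {ι A B G : Type*} [AddCommGroup A] [AddCommGroup B]

/-- **ALG1.** `π_*` is onto on the generalised eigenspaces.
RECIPE: `I = (genKer UB).map b ≤ genKer UA` (`map_mem_genKer_of_comm`).  If `I ≠ genKer UA` take `y` from `exists_annihilator`.
Claim `eA (b x') y = 1` for ALL `x' : B`: `exists_finset_genKer UB`, `decomp_finset UB hUB s x'` : `x' = x₀ + r`, `x₀ ∈ genKer UB` (so `b x₀ ∈ I`), `r` in the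
closure of `{x | ∃ i ∈ s, ∀ n, ∃ c, x = (UB i)^[n] c}`: for such a generator take `n` with `(UA i)^[n] y = 0`:
`eA (b ((UB i)^[n] c)) y = eA ((UA i)^[n] (b c)) y = eA (b c) ((UA i)^[n] y) = 1` (`e_iterate_adj`); copy the induction of `S41.Dual.nondeg_genKer`.
Then `eB x' (a y) = 1` for all `x'` (`adj`), so `a y = 0` (`eB_nd`), so `y = 0` (`a_inj`). -/
theorem surj_genKer {K : Type*} [Field K] [IsAlgClosed K] [CharZero K] [Finite A] [Finite B]
    (UA : ι → A →+ A) (UB : ι → B →+ B)
    (hUA : ∀ i j x, UA i (UA j x) = UA j (UA i x)) (hUB : ∀ i j x, UB i (UB j x) = UB j (UB i x))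
    (a : A →+ B) (b : B →+ A) (hb : ∀ i x, b (UB i x) = UA i (b x))
    (eA : A → A → Kˣ) (eA_add_left : ∀ x y z, eA (x + y) z = eA x z * eA y z)
    (eA_add_right : ∀ x y z, eA x (y + z) = eA x y * eA x z)
    (eA_adj : ∀ i x y, eA (UA i x) y = eA x (UA i y))
    (eB : B → B → Kˣ) (eB_nd : ∀ y, (∀ x, eB x y = 1) → y = 0)
    (adj : ∀ x y, eB x (a y) = eA (b x) y)
    (a_inj : ∀ y ∈ genKer UA, a y = 0 → y = 0)
    {x : A} (hx : x ∈ genKer UA) : ∃ y ∈ genKer UB, b y = x := by
  by_contra hcon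
  have hIle : (genKer UB).map b ≤ genKer UA := by
    rintro _ ⟨w, hw, rfl⟩
    exact map_mem_genKer_of_comm UB UA b hb hw
  have hne : (genKer UB).map b ≠ genKer UA := by
    intro heq
    have hx' : x ∈ (genKer UB).map b := heq ▸ hx
    obtain ⟨w, hw, hwx⟩ := hx'
    exact hcon ⟨w, hw, hwx⟩
  obtain ⟨y, hyA, hy0, hy⟩ := exists_annihilator eA eA_add_left eA_add_right (genKer UA)
    ((genKer UB).map b) hIle hne
  apply hy0
  apply a_inj y hyA
  apply eB_nd
  intro x'
  rw [adj]
  obtain ⟨s, hs⟩ := exists_finset_genKer UB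
  obtain ⟨x₀, r, rfl, hx₀, hr⟩ := decomp_finset UB hUB s x'
  have h1 : eA (b x₀) y = 1 := hy _ ⟨x₀, hs x₀ hx₀, rfl⟩
  have hbit : ∀ (i : ι) (n : ℕ) (c : B), b ((UB i)^[n] c) = (UA i)^[n] (b c) := by
    intro i n
    induction n with
    | zero => intro c; rfl
    | succ n ih =>
      intro c
      rw [Function.iterate_succ_apply, Function.iterate_succ_apply, ih, hb]
  have h2 : eA (b r) y = 1 := by
    induction hr using AddSubgroup.closure_induction with
    | mem z hz =>
      obtain ⟨i, -, hi⟩ := hz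
      obtain ⟨n, hn⟩ := hyA i
      obtain ⟨c, rfl⟩ := hi n
      rw [hbit, e_iterate_adj eA (UA i) (eA_adj i), hn, e_zero_right eA eA_add_right]
    | zero =>
      rw [map_zero]
      exact e_zero_left eA eA_add_left y
    | add z w _ _ hz hw => rw [map_add, eA_add_left, hz, hw, one_mul]
    | neg z _ hz =>
      have h3 := eA_add_left (b z) (-(b z)) y
      rw [add_neg_cancel, e_zero_left eA eA_add_left, hz, one_mul] at h3
      rw [map_neg]
      exact h3.symm
  rw [map_add, eA_add_left, h1, h2, one_mul]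

end Fermat.Agent.S43.Free
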